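import Fermat.Agent.S15.H975.DescTop2
import Fermat.Agent.S15.H362.CuspFinal

/-!
# Row S15: FINAL ASSEMBLY on the three-node TOP of helper915 (row-lead helper975)

    frozen S15  <==  Core.GeoStatement p  +  Mordell–Weil (frozen S17)  +  ALG0 + DIV + SEL

`Core.CuspStatement p` is on main (`H362.cuspStatement`, helper362); `Core.DescentStatement p` is
`H302.descentStatement_of_descCore` (helper302) applied to `descCoreAt_of_sel`.
Everything is sorry-free; the nodes are hypotheses.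
-/

set_option autoImplicit false

noncomputable section

open WeierstrassCurve WeierstrassCurve.Affine

namespace Fermat.Agent.S15.H975

open ModularCurve Fermat.Agent.S15

/-- **NODE DESC of the three-node TOP** from Mordell–Weil, ALG0, DIV and SEL. -/
theorem descentStatement_of_sel (hA : Alg0Statement) (hDiv : DivStatement)
    (hSel : SelStatement) {p : ℕ} [NeZero p] (hp : p.Prime)
    (hp' : p ∉ ({2, 3, 5, 7, 13} : Finset ℕ))
    (hMW : AddGroup.FG ↥(FixedPoints.addSubgroup Gal (JZero p))) :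
    Core.DescentStatement p := by
  refine H302.descentStatement_of_descCore p hMW fun S => ?_
  have h1 : eisensteinNumerator p ≠ 1 := (H362.one_lt_eisensteinNumerator hp hp').ne'
  obtain ⟨r, hr, hrn⟩ := Nat.exists_prime_and_dvd h1
  exact ⟨r, hr, hrn, descCoreAt_of_sel hA hDiv hSel p hp hMW S r hr
    (hrn.trans (eisensteinNumerator_dvd p))⟩

/-- **The frozen statement S15** from `Core.GeoStatement`, Mordell–Weil and the DESC nodes. -/
theorem S15_of_geo_sel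
    (hGeo : ∀ (p : ℕ) [NeZero p], p.Prime → p ∉ ({2, 3, 5, 7, 13} : Finset ℕ) →
      Core.GeoStatement p)
    (hMW : ∀ (p : ℕ) [NeZero p], p.Prime → 5 ≤ p →
      AddGroup.FG ↥(FixedPoints.addSubgroup Gal (JZero p)))
    (hA : Alg0Statement) (hDiv : DivStatement) (hSel : SelStatement)
    {p : ℕ} (hp : p.Prime) (hp' : p ∉ ({2, 3, 5, 7, 13} : Finset ℕ))
    (W : WeierstrassCurve ℤ) (hΔ : W.Δ ≠ 0)
    (Q : ((W.map (Int.castRingHom ℚ))⁄(AlgebraicClosure ℚ)).Point)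
    (hQfix : ∀ σ : AlgebraicClosure ℚ ≃ₐ[ℚ] AlgebraicClosure ℚ, σ • Q = Q)
    (hQord : addOrderOf Q = p)
    (h2Δ : (2 : ℤ) ∣ W.Δ) (h2c₄ : ¬ (2 : ℤ) ∣ W.c₄)
    (h2 : ∀ A : ValuationSubring (AlgebraicClosure ℚ), A.LiesOverPrime 2 →
      ¬ W.InZeroComponentAt A Q)
    (h3Δ : (3 : ℤ) ∣ W.Δ) (h3c₄ : ¬ (3 : ℤ) ∣ W.c₄)
    (h3 : ∀ A : ValuationSubring (AlgebraicClosure ℚ), A.LiesOverPrime 3 →
      ¬ W.InZeroComponentAt A Q)
    {ℓ : ℕ} (hℓ : ℓ.Prime) (hℓp : ℓ ≠ p) (hℓΔ : (ℓ : ℤ) ∣ W.Δ) (hℓc₄ : ¬ (ℓ : ℤ) ∣ W.c₄)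
    (A : ValuationSubring (AlgebraicClosure ℚ)) (hA' : A.LiesOverPrime ℓ) :
    ¬ W.InZeroComponentAt A Q := by
  haveI : NeZero p := ⟨hp.ne_zero⟩
  exact Core.s15_of_nodes hp hp' (H362.cuspStatement p hp) (hGeo p hp hp')
    (descentStatement_of_sel hA hDiv hSel hp hp' (hMW p hp (five_le_of_notMem hp hp')))
    W hΔ Q hQfix hQord h2Δ h2c₄ h2 h3Δ h3c₄ h3 hℓ hℓp hℓΔ hℓc₄ A hA'

end Fermat.Agent.S15.H975

end
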