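import Mathlib
import Fermat.Prelude.Def_FLTPrelim_Ramification
import Fermat.Prelude.Def_ModularCurve_HeckeModule
import Fermat.Agent.S19.Spec

/-!
# Row S15, node DESC-CORE: FROZEN SKELETON (row-lead helper975)

Design: `coord/S15-DESC-blueprint.md` (v3) + `coord/S15-DESC-skeleton.md` (this file explained).

    DescCoreTarget p S r   (= `H302.DescCoreAt p S r`, the wall of row S15)
      <== ALG0   (pure algebra)      SelBound + DIV + FINW + RTF
      <== ENGINE (pure algebra)      SelBound from a flag + per-step bounds + |K| |U| <= |W_E|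
      <== FLAG                       a Galois flag of `W_E = J[r]_Eis` with pieces `1` or `omega`
      <== LOCAL                      the per-step bounds (all the arithmetic)
            <== G3, PEU1J, PEUwJ, LOCP, COUNT (odd r) / LOCR2 (r = 2), + class field theory of Q
                  PEU*J <== T1 (HopfE) + T2 (rank r^2 Hopf orders, pure algebra)
                  LOCP  <== T6 (strong A2) + T7 (J(Q_p^ur)/r generated by torsion)

Everything below is DEFINITIONS and `Prop`s; the only theorem is the trivial assembly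
`descCoreTarget_of_nodes`.  A leaf = `theorem xxx : XxxStatement` in YOUR file
`Fermat/Agent/S15/H<seat>/...`, importing this file.  Do not edit this file.

Notation: `A = rat p` (rational points), `W = tors p r`, `W_E = eis p S r`,
`Y(F) = sel p r F = {y | r y ∈ A, σ y - y ∈ F for all σ}`.
-/

set_option autoImplicit false

noncomputable section

namespace Fermat.Agent.S15.H975

open ModularCurve

/-- `ℚ̄` -/
abbrev Qb : Type := AlgebraicClosure ℚ

/-- `Gal(ℚ̄/ℚ)` -/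
abbrev Gal : Type := Qb ≃ₐ[ℚ] Qb

section Defs

variable (p : ℕ) [NeZero p]

/-- `A = J₀(p)(ℚ)`: the Galois-fixed points. -/
def rat : AddSubgroup (JZero p) where
  carrier := {x | ∀ σ : Gal, σ • x = x}
  zero_mem' := fun σ => smul_zero σ
  add_mem' := by
    intro a b ha hb σ
    rw [smul_add, ha σ, hb σ]
  neg_mem' := by
    intro a ha σ
    rw [smul_neg, ha σ]

/-- `W = J₀(p)[r]`. -/
def tors (r : ℕ) : AddSubgroup (JZero p) where
  carrier := {w | r • w = 0}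
  zero_mem' := smul_zero r
  add_mem' := by
    intro a b ha hb
    show r • (a + b) = 0
    rw [nsmul_add, show r • a = 0 from ha, show r • b = 0 from hb, add_zero]
  neg_mem' := by
    intro a ha
    show r • (-a) = 0
    rw [neg_nsmul, show r • a = 0 from ha, neg_zero]

/-- The Eisenstein operator `η_ℓ = T_ℓ - (1 + ℓ)`. -/
def eta (ℓ : Nat.Primes) : Module.End ℤ (JZero p) :=
  heckeOperatorBar p ℓ - ((1 + (ℓ : ℕ) : ℕ) : ℤ) • (1 : Module.End ℤ (JZero p))

/-- `w` is Eisenstein (generalised eigenvector) for the good primes `ℓ ≠ p`, `ℓ ∉ S`. -/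
def IsEis (S : Set ℕ) (w : JZero p) : Prop :=
  ∀ ℓ : Nat.Primes, (ℓ : ℕ) ≠ p → (ℓ : ℕ) ∉ S → ∃ k : ℕ, (eta p ℓ ^ k) w = 0

theorem isEis_zero (S : Set ℕ) : IsEis p S 0 := fun _ _ _ => ⟨0, map_zero _⟩

theorem IsEis.add {S : Set ℕ} {a b : JZero p} (ha : IsEis p S a) (hb : IsEis p S b) :
    IsEis p S (a + b) := by
  intro ℓ h1 h2
  obtain ⟨k, hk⟩ := ha ℓ h1 h2
  obtain ⟨k', hk'⟩ := hb ℓ h1 h2
  refine ⟨k + k', ?_⟩
  rw [map_add]
  have e1 : (eta p ℓ ^ (k + k')) a = 0 := by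
    rw [add_comm, pow_add, Module.End.mul_apply, hk, map_zero]
  have e2 : (eta p ℓ ^ (k + k')) b = 0 := by
    rw [pow_add, Module.End.mul_apply, hk', map_zero]
  rw [e1, e2, add_zero]

theorem IsEis.neg {S : Set ℕ} {a : JZero p} (ha : IsEis p S a) : IsEis p S (-a) := by
  intro ℓ h1 h2
  obtain ⟨k, hk⟩ := ha ℓ h1 h2
  exact ⟨k, by rw [map_neg, hk, neg_zero]⟩

/-- `W_E`: the Eisenstein part of `J₀(p)[r]` (for the good primes `ℓ ≠ p`, `ℓ ∉ S`). -/
def eis (S : Set ℕ) (r : ℕ) : AddSubgroup (JZero p) where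
  carrier := {w | r • w = 0 ∧ IsEis p S w}
  zero_mem' := ⟨smul_zero r, isEis_zero p S⟩
  add_mem' := by
    rintro a b ⟨ha, ha'⟩ ⟨hb, hb'⟩
    exact ⟨by rw [nsmul_add, ha, hb, add_zero], ha'.add p hb'⟩
  neg_mem' := by
    rintro a ⟨ha, ha'⟩
    exact ⟨by rw [neg_nsmul, ha, neg_zero], ha'.neg p⟩

/-- `Y(F) = {y | r y ∈ A, σ y - y ∈ F for all σ}`: the `r`-division points of rational points
whose cocycle takes values in `F`. -/
def sel (r : ℕ) (F : AddSubgroup (JZero p)) : AddSubgroup (JZero p) where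
  carrier := {y | (∀ σ : Gal, σ • (r • y) = r • y) ∧ ∀ σ : Gal, σ • y - y ∈ F}
  zero_mem' := ⟨fun σ => by rw [smul_zero, smul_zero], fun σ => by
    rw [smul_zero, sub_zero]; exact F.zero_mem⟩
  add_mem' := by
    rintro a b ⟨ha, ha'⟩ ⟨hb, hb'⟩
    refine ⟨fun σ => ?_, fun σ => ?_⟩
    · rw [nsmul_add, smul_add σ (r • a) (r • b), ha σ, hb σ]
    · have h : σ • (a + b) - (a + b) = (σ • a - a) + (σ • b - b) := by
        rw [smul_add σ a b]; abel
      rw [h]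
      exact F.add_mem (ha' σ) (hb' σ)
  neg_mem' := by
    rintro a ⟨ha, ha'⟩
    refine ⟨fun σ => ?_, fun σ => ?_⟩
    · rw [neg_nsmul, smul_neg σ (r • a), ha σ]
    · have h : σ • (-a) - (-a) = -(σ • a - a) := by
        rw [smul_neg σ a]; abel
      rw [h]
      exact F.neg_mem (ha' σ)

/-- `F` is Galois-stable. -/
def IsStable (F : AddSubgroup (JZero p)) : Prop :=
  ∀ σ : Gal, ∀ f ∈ F, σ • f ∈ F

/-- `z ≡ z'` modulo `r A + A_tors`  (verbatim `H302.CongModRTors`). -/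
def CongMod (r : ℕ) (z z' : JZero p) : Prop :=
  ∃ w : JZero p, (∀ σ : Gal, σ • w = w) ∧ ∃ m : ℕ, 0 < m ∧ m • (z - z' - r • w) = 0

/-- **The target** (verbatim `H302.DescCoreAt p S r`). -/
def DescCoreTarget (S : Set ℕ) (r : ℕ) : Prop :=
  ∀ z : JZero p, (∀ σ : Gal, σ • z = z) →
    (∀ ℓ : Nat.Primes, (ℓ : ℕ) ≠ p → (ℓ : ℕ) ∉ S →
      CongMod p r (heckeOperatorBar p ℓ z) ((1 + (ℓ : ℕ) : ℕ) • z)) →
    CongMod p r z 0

/-- **SEL-BOUND**: `[Y(W_E) : A + W_E] ≤ |W_E ∩ A|` (and the index is finite). -/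
def SelBound (S : Set ℕ) (r : ℕ) : Prop :=
  (rat p ⊔ eis p S r).relIndex (sel p r (eis p S r)) ≠ 0 ∧
  (rat p ⊔ eis p S r).relIndex (sel p r (eis p S r)) ≤ Nat.card ↥(eis p S r ⊓ rat p)

/-- `F' ≤ F` is an Eisenstein piece: both Galois-stable, index `r`, and the Galois group acts on
`F / F'` trivially or through the cyclotomic character `ω` modulo `r`. -/
def IsEisPiece (r : ℕ) (F' F : AddSubgroup (JZero p)) : Prop :=
  F' ≤ F ∧ IsStable p F' ∧ IsStable p F ∧ F'.relIndex F = r ∧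
    ((∀ σ : Gal, ∀ f ∈ F, σ • f - f ∈ F') ∨
      ∃ ζ : Qb, IsPrimitiveRoot ζ r ∧
        ∀ (σ : Gal) (k : ℕ), σ ζ = ζ ^ k → ∀ f ∈ F, σ • f - k • f ∈ F')

/-- A full flag of Eisenstein pieces of `W_E`. -/
def IsFlag (S : Set ℕ) (r : ℕ) (D : ℕ) (F : ℕ → AddSubgroup (JZero p)) : Prop :=
  F 0 = ⊥ ∧ F D = eis p S r ∧ ∀ i < D, IsEisPiece p r (F i) (F (i + 1))

/-- `s = [Y(F) : Y(F') + F]`: the order of the Selmer group of the piece `F / F'`. -/
def selIndex (r : ℕ) (F' F : AddSubgroup (JZero p)) : ℕ :=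
  (sel p r F' ⊔ F).relIndex (sel p r F)

/-- `g = [F ∩ Y(F') : F'] = |(F / F')^G|`. -/
def fixIndex (r : ℕ) (F' F : AddSubgroup (JZero p)) : ℕ :=
  F'.relIndex (F ⊓ sel p r F')

/-- **The step bound** for the piece `F / F'`, relative to `K` (the non-étale part at `r`) and
`U` (the ramification at `p`):  `s · r^et ≤ r^ram · g`, where
`et := [F ∩ K ≤ F']`, `ram := [F ∩ U ≰ F']`. -/
def StepBound (r : ℕ) (K U F' F : AddSubgroup (JZero p)) : Prop :=
  selIndex p r F' F ≠ 0 ∧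
  (F ⊓ K ≤ F' → F ⊓ U ≤ F' → selIndex p r F' F * r ≤ fixIndex p r F' F) ∧
  (F ⊓ K ≤ F' → ¬ F ⊓ U ≤ F' → selIndex p r F' F ≤ fixIndex p r F' F) ∧
  (¬ F ⊓ K ≤ F' → F ⊓ U ≤ F' → selIndex p r F' F ≤ fixIndex p r F' F) ∧
  (¬ F ⊓ K ≤ F' → ¬ F ⊓ U ≤ F' → selIndex p r F' F ≤ r * fixIndex p r F' F)

end Defs

/-! ## Level 0 and 1: the pure algebra -/

/-- **DIV** (= G-DIV of row S17): `J₀(p)(ℚ̄)` is `r`-divisible. -/
def DivStatement : Prop :=
  ∀ (p : ℕ) [NeZero p], p.Prime → ∀ r : ℕ, r.Prime → ∀ x : JZero p, ∃ y : JZero p, r • y = x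

/-- **FINW** (on main: `S17.H317.torsion_finite`, `A3.H319`): `J₀(p)[n]` is finite. -/
def FinStatement : Prop :=
  ∀ (p : ℕ) [NeZero p] (n : ℕ), 0 < n → Finite ↥(tors p n)

/-- **RTF**: the rational torsion has bounded exponent (from S17, or from the finiteness of the
reductions of `J₀(p)(ℚ)` at two primes). -/
def RtfStatement : Prop :=
  ∀ (p : ℕ) [NeZero p], p.Prime → ∃ e : ℕ, 0 < e ∧
    ∀ t : JZero p, (∀ σ : Gal, σ • t = t) → (∃ m : ℕ, 0 < m ∧ m • t = 0) → e • t = 0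

/-- **ALG0** (pure algebra + Hecke facts on main: `S29.heckeOperatorsCommuteBar`,
`S29.H571`): the descent core from SEL-BOUND.  Blueprint §0. -/
def Alg0Statement : Prop :=
  ∀ (p : ℕ) [NeZero p] (S : Set ℕ) (r : ℕ), p.Prime → r.Prime →
    (∀ x : JZero p, ∃ y : JZero p, r • y = x) →
    (∀ n : ℕ, 0 < n → Finite ↥(tors p n)) →
    (∃ e : ℕ, 0 < e ∧
      ∀ t : JZero p, (∀ σ : Gal, σ • t = t) → (∃ m : ℕ, 0 < m ∧ m • t = 0) → e • t = 0) →
    SelBound p S r → DescCoreTarget p S r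

/-- **ENGINE** (pure algebra, Mathlib only): SEL-BOUND from a flag with step bounds.
Blueprint §1: for `F' ≤ F` Galois-stable,
`[Y(F) : A + F] · |F'^G| · g = s · [Y(F') : A + F'] · |F^G|`, and `Y(⊥) = A`. -/
def EngineStatement : Prop :=
  ∀ (p : ℕ) [NeZero p] (S : Set ℕ) (r : ℕ), r.Prime → Finite ↥(tors p r) →
    ∀ K U : AddSubgroup (JZero p), K ≤ eis p S r → U ≤ eis p S r →
      Nat.card ↥K * Nat.card ↥U ≤ Nat.card ↥(eis p S r) →
    ∀ (D : ℕ) (F : ℕ → AddSubgroup (JZero p)), IsFlag p S r D F →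
      (∀ i < D, StepBound p r K U (F i) (F (i + 1))) → SelBound p S r

/-! ## Level 1: the two arithmetic nodes -/

/-- **FLAG**: `W_E` has a full Galois flag with pieces of type `1` or `ω`.
Route: `S15.H62.exists_flag_of_frobenius` + `S37.Core.rawES` + Chebotarev (`Lib/Cheb`). -/
def FlagStatement : Prop :=
  ∀ (p : ℕ) [NeZero p], p.Prime → ∀ (S : Finset ℕ) (r : ℕ), r.Prime → r ∣ p - 1 →
    ∃ (D : ℕ) (F : ℕ → AddSubgroup (JZero p)), IsFlag p (S : Set ℕ) r D F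

/-- **LOCAL**: subgroups `K`, `U` of `W_E` with `|K| |U| ≤ |W_E|` for which every Eisenstein
piece satisfies the step bound. -/
def LocalStatement : Prop :=
  ∀ (p : ℕ) [NeZero p], p.Prime → ∀ (S : Finset ℕ) (r : ℕ), r.Prime → r ∣ p - 1 →
    ∃ K U : AddSubgroup (JZero p), K ≤ eis p (S : Set ℕ) r ∧ U ≤ eis p (S : Set ℕ) r ∧
      Nat.card ↥K * Nat.card ↥U ≤ Nat.card ↥(eis p (S : Set ℕ) r) ∧
      ∀ F' F : AddSubgroup (JZero p), F ≤ eis p (S : Set ℕ) r → IsEisPiece p r F' F →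
        StepBound p r K U F' F

/-- **Assembly of the skeleton.** -/
theorem descCoreTarget_of_nodes (hA : Alg0Statement) (hE : EngineStatement)
    (hDiv : DivStatement) (hFin : FinStatement) (hRtf : RtfStatement)
    (hFlag : FlagStatement) (hLoc : LocalStatement)
    (p : ℕ) [NeZero p] (hp : p.Prime) (S : Finset ℕ) (r : ℕ) (hr : r.Prime) (hrp : r ∣ p - 1) :
    DescCoreTarget p (S : Set ℕ) r := by
  have hW : Finite ↥(tors p r) := hFin p r hr.pos
  obtain ⟨D, F, hF⟩ := hFlag p hp S r hr hrp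
  obtain ⟨K, U, hK, hU, hKU, hstep⟩ := hLoc p hp S r hr hrp
  have hsel : SelBound p (S : Set ℕ) r :=
    hE p (S : Set ℕ) r hr hW K U hK hU hKU D F hF fun i hi =>
      hstep (F i) (F (i + 1)) (by
        -- `F (i+1) ≤ F D = W_E`
        have hmono : ∀ j, j ≤ D → ∀ i, i ≤ j → F i ≤ F j := by
          intro j
          induction j with
          | zero =>
            intro _ i hi
            rw [Nat.le_zero.mp hi]
          | succ j ih =>
            intro hj i hi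
            rcases Nat.lt_or_ge i (j + 1) with h | h
            · exact (ih (Nat.le_of_succ_le hj) i (Nat.lt_succ_iff.mp h)).trans
                (hF.2.2 j (Nat.lt_of_succ_le hj)).1
            · rw [le_antisymm hi h]
        rw [← hF.2.1]
        exact hmono D le_rfl (i + 1) hi) (hF.2.2 i hi)
  exact hA p (S : Set ℕ) r hp hr (hDiv p hp r hr) (fun n hn => hFin p n hn) (hRtf p hp) hsel

/-! ## Level 2: the leaves of LOCAL -/

/-- **G3**: inertia at `ℓ ∤ p r` acts trivially on the `r`-division points of the points it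
fixes.  Formal from row S37 (`WeakRedData.inertia`) and the frozen S18. -/
def G3Statement : Prop :=
  ∀ (p : ℕ) [NeZero p], p.Prime → ∀ r : ℕ, r.Prime → ∀ ℓ : ℕ, ℓ.Prime → ℓ ≠ p → ℓ ≠ r →
    ∀ A : ValuationSubring Qb, A.LiesOverPrime ℓ → ∀ τ ∈ A.inertiaSubgroupIn ℚ,
      ∀ y : JZero p, τ • (r • y) = r • y → τ • y = y

/-- **LOC-p**: the cocycles of `Y(W_E)` restricted to inertia at (one place over) `p` take
values in a subgroup `U` of `W_E` with `|U|² ≤ |W_E|`.  Blueprint §5 (T6 + T7 + algebra). -/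
def LocPStatement : Prop :=
  ∀ (p : ℕ) [NeZero p], p.Prime → ∀ (S : Finset ℕ) (r : ℕ), r.Prime → r ∣ p - 1 →
    ∃ A : ValuationSubring Qb, A.LiesOverPrime p ∧
      ∃ U : AddSubgroup (JZero p), U ≤ eis p (S : Set ℕ) r ∧
        Nat.card ↥U ^ 2 ≤ Nat.card ↥(eis p (S : Set ℕ) r) ∧
        ∀ y ∈ sel p r (eis p (S : Set ℕ) r), ∀ τ ∈ A.inertiaSubgroupIn ℚ, τ • y - y ∈ U

/-- **T7 (LOC-p')**: every rational point is `t + r u` with `t` of `r`-power order, `t` and `u`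
fixed by inertia at (one place over) `p`. -/
def T7Statement : Prop :=
  ∀ (p : ℕ) [NeZero p], p.Prime → ∀ r : ℕ, r.Prime → r ≠ p →
    ∃ A : ValuationSubring Qb, A.LiesOverPrime p ∧
      ∀ x : JZero p, (∀ σ : Gal, σ • x = x) →
        ∃ t u : JZero p, x = t + r • u ∧ (∃ k : ℕ, r ^ k • t = 0) ∧
          ∀ τ ∈ A.inertiaSubgroupIn ℚ, τ • t = t ∧ τ • u = u

/-- **T6 (strong A2 + tame)**: at every level `r^k` the inertia at `p` acts on `J₀(p)[r^k]`
through the powers of one element `t₀` with `(t₀ - 1)² = 0`. -/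
def T6Statement : Prop :=
  ∀ (p : ℕ) [NeZero p], p.Prime → ∀ r : ℕ, r.Prime → r ≠ p →
    ∀ A : ValuationSubring Qb, A.LiesOverPrime p → ∀ k : ℕ,
      ∃ t₀ ∈ A.inertiaSubgroupIn ℚ,
        (∀ w : JZero p, r ^ k • w = 0 → t₀ • t₀ • w - 2 • t₀ • w + w = 0) ∧
        ∀ τ ∈ A.inertiaSubgroupIn ℚ, ∃ j : ℕ, ∀ w : JZero p, r ^ k • w = 0 →
          τ • w = (t₀ ^ j) • w

/-- **COUNT, `r` odd**: for a complex conjugation `cc`, `|W_E^{cc = -1}|² ≤ |W_E|`. -/
def CountOddStatement : Prop :=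
  ∀ (p : ℕ) [NeZero p], p.Prime → ∀ (S : Finset ℕ) (r : ℕ), r.Prime → r ≠ 2 → r ∣ p - 1 →
    ∃ cc : Gal, cc * cc = 1 ∧ (∀ ζ : Qb, ζ ^ r = 1 → cc ζ = ζ⁻¹) ∧
      ∃ K : AddSubgroup (JZero p), (∀ w, w ∈ K ↔ w ∈ eis p (S : Set ℕ) r ∧ cc • w = -w) ∧
        Nat.card ↥K ^ 2 ≤ Nat.card ↥(eis p (S : Set ℕ) r)

/-- **LOC-r, `r = 2`** (COUNT + LOC-r-ét): the cocycles of `Y(W_E)` restricted to inertia at
(one place over) `2` take values in a subgroup `K` of `W_E` with `|K|² ≤ |W_E|`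
(`K = W_E ∩ ker(reduction)`; the bound is the ordinarity of the Eisenstein part). -/
def LocR2Statement : Prop :=
  ∀ (p : ℕ) [NeZero p], p.Prime → p ≠ 2 → ∀ (S : Finset ℕ),
    ∃ A : ValuationSubring Qb, A.LiesOverPrime 2 ∧
      ∃ K : AddSubgroup (JZero p), K ≤ eis p (S : Set ℕ) 2 ∧
        Nat.card ↥K ^ 2 ≤ Nat.card ↥(eis p (S : Set ℕ) 2) ∧
        ∀ y ∈ sel p 2 (eis p (S : Set ℕ) 2), ∀ τ ∈ A.inertiaSubgroupIn ℚ, τ • y - y ∈ K

/-- **PEU-1 on `J`** (`r` odd): on a piece with trivial Galois action the characters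
`σ ↦ (σ y - y mod F')`, `y ∈ Y(F)`, are unramified at `r`. -/
def Peu1JStatement : Prop :=
  ∀ (p : ℕ) [NeZero p], p.Prime → ∀ r : ℕ, r.Prime → r ≠ p → r ≠ 2 →
    ∀ A : ValuationSubring Qb, A.LiesOverPrime r → ∀ τ ∈ A.inertiaSubgroupIn ℚ,
    ∀ F' F : AddSubgroup (JZero p), F' ≤ F → F ≤ tors p r → IsStable p F' → IsStable p F →
      F'.relIndex F = r → (∀ σ : Gal, ∀ f ∈ F, σ • f - f ∈ F') →
      ∀ y ∈ sel p r F, τ • y - y ∈ F'

/-- **PEU-ω on `J`** (all `r`, including `2`): on a piece of type `ω` (generated by `e`, with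
`ζ ↔ e`), if `a ∈ ℚˣ` is the Kummer class of `y ∈ Y(F)` (i.e. `σ α = ζ^m α` implies
`σ y - y ≡ m e mod F'`, `α^r = a`), then `r ∣ v_r(a)`. -/
def PeuOmegaJStatement : Prop :=
  ∀ (p : ℕ) [NeZero p], p.Prime → ∀ r : ℕ, r.Prime → r ≠ p →
    ∀ F' F : AddSubgroup (JZero p), F' ≤ F → F ≤ tors p r → IsStable p F' → IsStable p F →
      F'.relIndex F = r →
    ∀ ζ : Qb, IsPrimitiveRoot ζ r →
      (∀ (σ : Gal) (k : ℕ), σ ζ = ζ ^ k → ∀ f ∈ F, σ • f - k • f ∈ F') →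
    ∀ e ∈ F, e ∉ F' → ∀ y ∈ sel p r F, ∀ (a : ℚ) (α : Qb), a ≠ 0 →
      α ^ r = algebraMap ℚ Qb a →
      (∀ (σ : Gal) (m : ℕ), σ α = ζ ^ m * α → σ • y - y - m • e ∈ F') →
      (r : ℤ) ∣ padicValRat r a

/-! ## Level 3: flatness at `r` without Fontaine (T1 + T2) -/

/-- **T1 (HOPF-E)**: for a rational point `x = r y` the extension
`0 → J[r] → E_x → ℤ/r → 0` (class = Kummer class of `x`) has a Hopf model over `ℤ_(r)`.
Route: the A3 LOCAL assembly (`A3/H799/Asm.lean`) for the finite inertia-stable SET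
`{t + j y}` with the twisted addition, then `S19.UnrStatement`, `S19.OrdStatement`. -/
def T1Statement : Prop :=
  ∀ (p : ℕ) [NeZero p], p.Prime → ∀ r : ℕ, r.Prime → r ≠ p →
    ∀ y : JZero p, (∀ σ : Gal, σ • (r • y) = r • y) →
      ∃ (M : Type) (_ : AddCommGroup M) (_ : Finite M) (act : Gal → M → M)
        (ι : ↥(tors p r) →+ M) (y' : M),
        Fermat.Agent.S19.IsContAddAction act ∧ Fermat.Agent.S19.HopfModel r M act ∧
        Function.Injective ι ∧ r • y' = 0 ∧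
        (∀ j : ℕ, j • y' ∈ ι.range → r ∣ j) ∧
        (∀ m : M, ∃ (j : ℕ) (w : ↥(tors p r)), m = j • y' + ι w) ∧
        (∀ (σ : Gal) (w w' : ↥(tors p r)), (w' : JZero p) = σ • (w : JZero p) →
          act σ (ι w) = ι w') ∧
        ∀ (σ : Gal) (w : ↥(tors p r)), (w : JZero p) = σ • y - y → act σ y' = y' + ι w

/-- **T2-ω** (pure algebra over `ℤ_(r)`; blueprint §4 (a)-(d)): a Hopf model of an extension of
`ℤ/r` (generated by `y`) by `μ_r` (generated by `e ↔ ζ`) with Kummer class `a` forces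
`r ∣ v_r(a)`. -/
def T2OmegaStatement : Prop :=
  ∀ (r : ℕ), r.Prime → ∀ (Q : Type) (_ : AddCommGroup Q) (_ : Finite Q) (act : Gal → Q → Q),
    Fermat.Agent.S19.IsContAddAction act → Fermat.Agent.S19.HopfModel r Q act →
    ∀ e y : Q, r • e = 0 → r • y = 0 → e ≠ 0 → (∀ j : ℕ, j • y ∈ AddSubgroup.zmultiples e → r ∣ j) →
      (∀ q : Q, ∃ i j : ℕ, q = i • e + j • y) →
    ∀ ζ : Qb, IsPrimitiveRoot ζ r → (∀ (σ : Gal) (k : ℕ), σ ζ = ζ ^ k → act σ e = k • e) →
    ∀ (a : ℚ) (α : Qb), a ≠ 0 → α ^ r = algebraMap ℚ Qb a →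
      (∀ (σ : Gal) (m : ℕ), σ α = ζ ^ m * α → act σ y = y + m • e) →
      (r : ℤ) ∣ padicValRat r a

/-- **T2-1** (pure algebra, `r` odd; blueprint §4 (e),(c)): a Hopf model of an extension of `ℤ/r`
by `ℤ/r` with trivial Galois action on the sub and the quotient is unramified at `r`. -/
def T2OneStatement : Prop :=
  ∀ (r : ℕ), r.Prime → r ≠ 2 →
    ∀ (Q : Type) (_ : AddCommGroup Q) (_ : Finite Q) (act : Gal → Q → Q),
    Fermat.Agent.S19.IsContAddAction act → Fermat.Agent.S19.HopfModel r Q act →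
    ∀ e y : Q, r • e = 0 → r • y = 0 → (∀ q : Q, ∃ i j : ℕ, q = i • e + j • y) →
      (∀ σ : Gal, act σ e = e) → (∀ σ : Gal, ∃ m : ℕ, act σ y = y + m • e) →
    ∀ A : ValuationSubring Qb, A.LiesOverPrime r → ∀ τ ∈ A.inertiaSubgroupIn ℚ, act τ y = y

end Fermat.Agent.S15.H975

end
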