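import Fermat.Agent.S15.H975.DescSpec
import Fermat.Agent.S15.H208.CountInst
import Fermat.Prelude.Def_GaloisRep_ComplexConjugation

/-!
# Row S15, node DESC-CORE: FROZEN SKELETON, OFFICIAL ROUTE (row-lead helper975, 21:10Z)

Route of helper208 (no T7) + the REAL place for COUNT (helpers 111/302/591/646/784/886/915):

    SelStatement  <==  FLAG + COUNT + CNT + STEP          (`SelAsmStatement`, pure algebra)

with, for `g ∈ Gal(ℚ̄/ℚ)`,  `cocImage p S r g := (g - 1) Y(W_E)`  (a subgroup of `W_E`), and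

* `K  := cocImage p S r complexConjugation`   (the real place),
* `U₀ := cocImage p S r τ₀`, `τ₀` in the inertia group of a place over `p`,
* COUNT : `|K|² ≤ |W_E|`                      (CONJ + EPS + Manin pairing; odd `r` and `r = 2`),
* CNT   : `|U₀|² ≤ [Y(W_E) : A]`              (`H208.card_tauSub_YE_sq_le` + T6'' + DIV),
* STEP  : the step bounds `StepBound p r K U₀ F' F` for all Eisenstein pieces, for a suitable
          `τ₀` (BASE + G3 + PEU; class field theory of `ℚ`).

The old nodes `LocalStatement`, `LocPStatement`, `T6Statement`, `T7Statement`,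
`CountOddStatement`, `LocR2Statement` of `DescSpec.lean` are the BACKUP route.
-/

set_option autoImplicit false

noncomputable section

namespace Fermat.Agent.S15.H975

open ModularCurve

/-- `(g - 1) Y(W_E)`: the values at `g` of the cocycles of the points of `Y(W_E)`. -/
def cocImage (p : ℕ) [NeZero p] (S : Set ℕ) (r : ℕ) (g : Gal) : AddSubgroup (JZero p) :=
  (sel p r (eis p S r)).map (Fermat.Agent.S15.H208.tauSub g)

theorem mem_cocImage {p : ℕ} [NeZero p] {S : Set ℕ} {r : ℕ} {g : Gal} {w : JZero p} :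
    w ∈ cocImage p S r g ↔ ∃ y ∈ sel p r (eis p S r), g • y - y = w :=
  Iff.rfl

theorem cocImage_le (p : ℕ) [NeZero p] (S : Set ℕ) (r : ℕ) (g : Gal) :
    cocImage p S r g ≤ eis p S r := by
  rintro w ⟨y, hy, rfl⟩
  exact hy.2 g

/-- **SEL**: the Selmer bound for every prime `r ∣ p - 1`. -/
def SelStatement : Prop :=
  ∀ (p : ℕ) [NeZero p], p.Prime → ∀ (S : Finset ℕ) (r : ℕ), r.Prime → r ∣ p - 1 →
    SelBound p (S : Set ℕ) r

/-- **COUNT** (real place, all `r`): `|(c - 1) Y(W_E)|² ≤ |W_E|`. -/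
def CountStatement : Prop :=
  ∀ (p : ℕ) [NeZero p], p.Prime → ∀ (S : Finset ℕ) (r : ℕ), r.Prime → r ∣ p - 1 →
    Nat.card ↥(cocImage p (S : Set ℕ) r complexConjugation) ^ 2 ≤
      Nat.card ↥(eis p (S : Set ℕ) r)

/-- **CNT** (place `p`, route 208): `|(τ₀ - 1) Y(W_E)|² ≤ [Y(W_E) : A]` for every inertia element
`τ₀` at a place over `p`, as soon as the index is finite. -/
def CntStatement : Prop :=
  ∀ (p : ℕ) [NeZero p], p.Prime → ∀ (S : Finset ℕ) (r : ℕ), r.Prime → r ∣ p - 1 →
    ∀ A : ValuationSubring Qb, A.LiesOverPrime p → ∀ τ₀ ∈ A.inertiaSubgroupIn ℚ,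
      (rat p).relIndex (sel p r (eis p (S : Set ℕ) r)) ≠ 0 →
      Nat.card ↥(cocImage p (S : Set ℕ) r τ₀) ^ 2 ≤
        (rat p).relIndex (sel p r (eis p (S : Set ℕ) r))

/-- **STEP** (BASE + G3 + PEU): for a suitable inertia element `τ₀` at `p` every Eisenstein
piece satisfies the step bound relative to `K = (c - 1) Y(W_E)` and `U₀ = (τ₀ - 1) Y(W_E)`. -/
def StepStatement : Prop :=
  ∀ (p : ℕ) [NeZero p], p.Prime → ∀ (S : Finset ℕ) (r : ℕ), r.Prime → r ∣ p - 1 →
    ∃ A : ValuationSubring Qb, A.LiesOverPrime p ∧ ∃ τ₀ ∈ A.inertiaSubgroupIn ℚ,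
      ∀ F' F : AddSubgroup (JZero p), F ≤ eis p (S : Set ℕ) r → IsEisPiece p r F' F →
        StepBound p r (cocImage p (S : Set ℕ) r complexConjugation)
          (cocImage p (S : Set ℕ) r τ₀) F' F

/-- **SEL-ASM** (pure algebra: `H51`/`H842` engine + `H208.selfImproving`). -/
def SelAsmStatement : Prop :=
  FlagStatement → CountStatement → CntStatement → StepStatement → SelStatement

/-- Route 1 (backup): SEL from ENGINE + FLAG + LOCAL. -/
theorem selStatement_of_local (hE : EngineStatement) (hFlag : FlagStatement)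
    (hLoc : LocalStatement) (hFin : FinStatement) : SelStatement := by
  intro p _ hp S r hr hrp
  have hW : Finite ↥(tors p r) := hFin p r hr.pos
  obtain ⟨D, F, hF⟩ := hFlag p hp S r hr hrp
  obtain ⟨K, U, hK, hU, hKU, hstep⟩ := hLoc p hp S r hr hrp
  have hmono : ∀ j, j ≤ D → ∀ i, i ≤ j → F i ≤ F j := by
    intro j
    induction j with
    | zero =>
      intro _ i hi
      rw [Nat.le_zero.mp hi]
    | succ j ih =>
      intro hj i hi
      rcases Nat.lt_or_ge i (j + 1) with h | h
      · exact (ih (Nat.le_of_succ_le hj) i (Nat.lt_succ_iff.mp h)).trans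
          (hF.2.2 j (Nat.lt_of_succ_le hj)).1
      · rw [le_antisymm hi h]
  exact hE p (S : Set ℕ) r hr hW K U hK hU hKU D F hF fun i hi =>
    hstep (F i) (F (i + 1)) (by rw [← hF.2.1]; exact hmono D le_rfl (i + 1) hi) (hF.2.2 i hi)

end Fermat.Agent.S15.H975

end
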