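import Fermat.Agent.S15.H975.DescSpec
import Fermat.Agent.S15.H302.DescWeak
import Fermat.Agent.S17.H317.TorsionFinite

/-!
# Row S15: FINAL ASSEMBLY from the nodes of `DescSpec.lean` (row-lead helper975)

    frozen S15  <==  GeoWeak  +  Mordell–Weil (frozen S17)  +  the nodes of `DescSpec.lean`

* `finStatement`            : FIN, from `S30.H810.torsion_finite` (on main);
* `rtf_of_fg`               : RTF from Mordell–Weil;
* `descCoreAt_of_nodes`     : `H302.DescCoreAt p S r` for every prime `r ∣ p - 1`;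
* `descWeak_of_nodes`       : the weak descent node, for Eisenstein vectors killed by `p - 1`;
* `S15_of_nodes`            : the frozen statement S15.

Everything is sorry-free; the nodes are hypotheses.
-/

set_option autoImplicit false

noncomputable section

open WeierstrassCurve WeierstrassCurve.Affine

namespace Fermat.Agent.S15.H975

open ModularCurve Fermat.Agent.S15

/-- **FIN** (on main). -/
theorem finStatement : FinStatement := by
  intro p _ n hn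
  haveI : NeZero n := ⟨hn.ne'⟩
  exact (Fermat.Agent.S30.H810.torsion_finite p n).to_subtype

/-- the target of `DescSpec.lean` is the descent core of helper302, verbatim -/
theorem descCoreAt_of_target {p : ℕ} [NeZero p] {S : Set ℕ} {r : ℕ}
    (h : DescCoreTarget p S r) : H302.DescCoreAt p S r := h

/-- **RTF from Mordell–Weil**: a finitely generated abelian group has finite torsion. -/
theorem rtf_of_fg (p : ℕ) [NeZero p]
    (hMW : AddGroup.FG ↥(FixedPoints.addSubgroup Gal (JZero p))) :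
    ∃ e : ℕ, 0 < e ∧
      ∀ t : JZero p, (∀ σ : Gal, σ • t = t) → (∃ m : ℕ, 0 < m ∧ m • t = 0) → e • t = 0 := by
  classical
  set A : AddSubgroup (JZero p) := FixedPoints.addSubgroup Gal (JZero p) with hA
  haveI : Module.Finite ℤ A := Module.Finite.iff_addGroup_fg.mpr hMW
  -- the torsion submodule is finitely generated and torsion, hence finite
  haveI : IsNoetherian ℤ A := isNoetherian_of_isNoetherianRing_of_finite ℤ A
  haveI : Module.Finite ℤ (Submodule.torsion ℤ A) :=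
    Module.Finite.of_fg (IsNoetherian.noetherian _)
  haveI hfin : Finite (Submodule.torsion ℤ A) :=
    Module.finite_of_fg_torsion _ (Submodule.torsion_isTorsion (R := ℤ) (M := A))
  refine ⟨Nat.card (Submodule.torsion ℤ A), Nat.card_pos, ?_⟩
  intro t ht ⟨m, hm, hmt⟩
  have htA : t ∈ A := fun σ => ht σ
  have htt : (⟨t, htA⟩ : A) ∈ Submodule.torsion ℤ A := by
    rw [Submodule.mem_torsion_iff]
    refine ⟨⟨(m : ℤ), mem_nonZeroDivisors_of_ne_zero (by exact_mod_cast hm.ne')⟩, ?_⟩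
    apply Subtype.ext
    show ((m : ℤ) • (⟨t, htA⟩ : A) : A).1 = 0
    rw [natCast_zsmul]
    exact hmt
  have h1 : Nat.card (Submodule.torsion ℤ A) • (⟨⟨t, htA⟩, htt⟩ : Submodule.torsion ℤ A) = 0 :=
    card_nsmul_eq_zero'
  have h2 := congrArg (fun x : Submodule.torsion ℤ A => ((x : A) : JZero p)) h1
  simpa using h2

/-- **The descent core from the nodes.** -/
theorem descCoreAt_of_nodes (hA : Alg0Statement) (hE : EngineStatement)
    (hDiv : DivStatement) (hFlag : FlagStatement) (hLoc : LocalStatement)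
    (p : ℕ) [NeZero p] (hp : p.Prime)
    (hMW : AddGroup.FG ↥(FixedPoints.addSubgroup Gal (JZero p)))
    (S : Finset ℕ) (r : ℕ) (hr : r.Prime) (hrp : r ∣ p - 1) :
    H302.DescCoreAt p (S : Set ℕ) r := by
  have hW : Finite ↥(tors p r) := finStatement p r hr.pos
  obtain ⟨D, F, hF⟩ := hFlag p hp S r hr hrp
  obtain ⟨K, U, hK, hU, hKU, hstep⟩ := hLoc p hp S r hr hrp
  have hmono : ∀ j, j ≤ D → ∀ i, i ≤ j → F i ≤ F j := by
    intro j
    induction j with
    | zero =>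
      intro _ i hi
      rw [Nat.le_zero.mp hi]
    | succ j ih =>
      intro hj i hi
      rcases Nat.lt_or_ge i (j + 1) with h | h
      · exact (ih (Nat.le_of_succ_le hj) i (Nat.lt_succ_iff.mp h)).trans
          (hF.2.2 j (Nat.lt_of_succ_le hj)).1
      · rw [le_antisymm hi h]
  have hsel : SelBound p (S : Set ℕ) r :=
    hE p (S : Set ℕ) r hr hW K U hK hU hKU D F hF fun i hi =>
      hstep (F i) (F (i + 1)) (by rw [← hF.2.1]; exact hmono D le_rfl (i + 1) hi) (hF.2.2 i hi)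
  exact descCoreAt_of_target
    (hA p (S : Set ℕ) r hp hr (hDiv p hp r hr) (fun n hn => finStatement p n hn)
      (rtf_of_fg p hMW) hsel)

/-- **NODE DESC, weak form, for vectors killed by `p - 1`.** -/
def DescWeakStatement' : Prop :=
  ∀ (p : ℕ) [NeZero p] (_hp : p.Prime) (_hp' : p ∉ ({2, 3, 5, 7, 13} : Finset ℕ))
    (S : Finset ℕ) (c : ModularCurve.JZero p) (_hc : ∀ σ : Gal, σ • c = c) (_hc0 : c ≠ 0)
    (_hct : (p - 1) • c = 0) (_hcE : IsEisensteinVector p c),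
    ∃ t ∈ heckeRingAway p S,
      (∀ z : ModularCurve.JZero p, (∀ σ : Gal, σ • z = z) → ∃ m : ℕ, 0 < m ∧ m • t z = 0) ∧
      t c ≠ 0

theorem five_le_of_notMem {p : ℕ} (hp : p.Prime) (hp' : p ∉ ({2, 3, 5, 7, 13} : Finset ℕ)) :
    5 ≤ p := by
  have h2 := hp.two_le
  by_contra hlt
  push Not at hlt
  have : p = 2 ∨ p = 3 ∨ p = 4 := by omega
  rcases this with rfl | rfl | rfl
  · exact hp' (by simp)
  · exact hp' (by simp)
  · exact absurd hp (by decide)

/-- **The weak descent node from Mordell–Weil and the nodes of `DescSpec.lean`.** -/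
theorem descWeak_of_nodes
    (hMW : ∀ (p : ℕ) [NeZero p], p.Prime → 5 ≤ p →
      AddGroup.FG ↥(FixedPoints.addSubgroup Gal (JZero p)))
    (hA : Alg0Statement) (hE : EngineStatement)
    (hDiv : DivStatement) (hFlag : FlagStatement) (hLoc : LocalStatement) :
    DescWeakStatement' := by
  intro p _ hp hp' S c hcfix hc0 hct hcE
  have hp5 : 5 ≤ p := five_le_of_notMem hp hp'
  have hp1 : 0 < p - 1 := by omega
  -- a prime `r` dividing the order of `c`
  have hord : addOrderOf c ∣ p - 1 := addOrderOf_dvd_of_nsmul_eq_zero hct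
  have hord1 : addOrderOf c ≠ 1 := by
    intro h
    exact hc0 (AddMonoid.addOrderOf_eq_one_iff.mp h)
  obtain ⟨r, hr, hrc⟩ := Nat.exists_prime_and_dvd hord1
  have hrp : r ∣ p - 1 := hrc.trans hord
  have hD : H302.DescCoreAt p (S : Set ℕ) r :=
    descCoreAt_of_nodes hA hE hDiv hFlag hLoc p hp (hMW p hp hp5) S r hr hrp
  obtain ⟨t, ht1, htM⟩ :=
    H302.exists_goodAlg_of_descCore p (S : Set ℕ) r hr.pos (hMW p hp hp5) hD
  refine ⟨H302.goodEval p (S : Set ℕ) t, ?_, htM, ?_⟩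
  · rw [← H302.goodHeckeAlg_eq_heckeRingAway]
    exact H302.goodEval_mem p _ t
  · have hE' := H302.isEisensteinClass_of_isEisensteinVector hcE
    rw [H302.goodEval_eisenstein _ hE' t]
    intro h0
    have h1 : (addOrderOf c : ℤ) ∣ H302.eisChar p (S : Set ℕ) t :=
      (addOrderOf_dvd_iff_zsmul_eq_zero).2 h0
    have h2 : (r : ℤ) ∣ H302.eisChar p (S : Set ℕ) t :=
      (Int.natCast_dvd_natCast.2 hrc).trans h1
    have h3 : (r : ℤ) ∣ 1 := by
      have := dvd_sub h2 ht1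
      simpa using this
    have h4 : (r : ℤ) = 1 ∨ (r : ℤ) = -1 := Int.isUnit_iff.1 (isUnit_of_dvd_one h3)
    rcases h4 with h4 | h4
    · exact hr.one_lt.ne' (by exact_mod_cast h4)
    · have : (0 : ℤ) ≤ r := Int.natCast_nonneg r
      omega

/-- **S15 from `GeoWeak` and `DescWeakStatement'`** (the proof of `S15_of_weak`, which only uses
the descent node for the vector `c` of `GeoWeak`, killed by `p - 1`). -/
theorem S15_of_weak' (hgeo : GeoWeak) (hdesc : DescWeakStatement')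
    {p : ℕ} (hp : p.Prime) (hp' : p ∉ ({2, 3, 5, 7, 13} : Finset ℕ))
    (W : WeierstrassCurve ℤ) (hΔ : W.Δ ≠ 0)
    (Q : ((W.map (Int.castRingHom ℚ))⁄(AlgebraicClosure ℚ)).Point)
    (hQfix : ∀ σ : AlgebraicClosure ℚ ≃ₐ[ℚ] AlgebraicClosure ℚ, σ • Q = Q)
    (hQord : addOrderOf Q = p)
    (h2Δ : (2 : ℤ) ∣ W.Δ) (h2c₄ : ¬ (2 : ℤ) ∣ W.c₄)
    (h2 : ∀ A : ValuationSubring (AlgebraicClosure ℚ), A.LiesOverPrime 2 →
      ¬ W.InZeroComponentAt A Q)
    (h3Δ : (3 : ℤ) ∣ W.Δ) (h3c₄ : ¬ (3 : ℤ) ∣ W.c₄)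
    (h3 : ∀ A : ValuationSubring (AlgebraicClosure ℚ), A.LiesOverPrime 3 →
      ¬ W.InZeroComponentAt A Q)
    {ℓ : ℕ} (hℓ : ℓ.Prime) (hℓp : ℓ ≠ p) (hℓΔ : (ℓ : ℤ) ∣ W.Δ) (hℓc₄ : ¬ (ℓ : ℤ) ∣ W.c₄)
    (A : ValuationSubring (AlgebraicClosure ℚ)) (hA : A.LiesOverPrime ℓ) :
    ¬ W.InZeroComponentAt A Q := by
  refine H242.step3_of_pm_one hp W Q hQfix hQord hℓ hℓp hℓΔ hℓc₄ A hA (fun hpm hQ0 => ?_)
  haveI : NeZero p := ⟨hp.ne_zero⟩
  have hp2 : (2 : ℕ) ≠ p := by rintro rfl; simp at hp'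
  have hp3 : (3 : ℕ) ≠ p := by rintro rfl; simp at hp'
  obtain ⟨c, D, hcfix, hDfix, hc0, hcord, hcE, hred⟩ := hgeo p hp hp' W hΔ Q hQfix hQord
  obtain ⟨A₂, hA₂⟩ := S54.exists_valuationSubring_liesOver 2 Nat.prime_two
  obtain ⟨A₃, hA₃⟩ := S54.exists_valuationSubring_liesOver 3 Nat.prime_three
  obtain ⟨S₂, Y₂, _, red₂, hg₂, hn₂, -⟩ :=
    hred 2 Nat.prime_two hp2 (by exact_mod_cast h2Δ) (by exact_mod_cast h2c₄) A₂ hA₂
  obtain ⟨S₃, Y₃, _, red₃, hg₃, hn₃, -⟩ :=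
    hred 3 Nat.prime_three hp3 (by exact_mod_cast h3Δ) (by exact_mod_cast h3c₄) A₃ hA₃
  obtain ⟨Sℓ, Yℓ, _, redℓ, hgℓ, -, hzℓ⟩ := hred ℓ hℓ hℓp hℓΔ hℓc₄ A hA
  obtain ⟨t, htmem, httors, htc⟩ :=
    hdesc p hp hp' (S₂ ∪ S₃ ∪ Sℓ) c hcfix hc0 hcord hcE
  have ht₂ : t ∈ heckeRingAway p S₂ :=
    heckeRingAway_mono p (fun x hx => by simp [hx]) htmem
  have ht₃ : t ∈ heckeRingAway p S₃ :=
    heckeRingAway_mono p (fun x hx => by simp [hx]) htmem
  have htℓ : t ∈ heckeRingAway p Sℓ :=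
    heckeRingAway_mono p (fun x hx => by simp [hx]) htmem
  have htD₂ : red₂ (t D) = 0 :=
    red_eq_zero_of_mem_heckeRingAway' hg₂ ht₂ D (hn₂ (h2 A₂ hA₂))
  have htD₃ : red₃ (t D) = 0 :=
    red_eq_zero_of_mem_heckeRingAway' hg₃ ht₃ D (hn₃ (h3 A₃ hA₃))
  obtain ⟨m, hm0, hm⟩ := httors D hDfix
  have htD : t D = 0 := eq_zero_of_red_two_three' hg₂ hg₃ (t D) hm0 hm htD₂ htD₃
  have hcℓ : redℓ (t c) = 0 := by
    rcases hzℓ hQ0 with h | h
    · have h0 : redℓ (D - c) = 0 := by rw [map_sub, h, sub_self]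
      have h1 := red_eq_zero_of_mem_heckeRingAway' hgℓ htℓ (D - c) h0
      rw [map_sub, htD, zero_sub, map_neg, neg_eq_zero] at h1
      exact h1
    · have h0 : redℓ (D + c) = 0 := by rw [map_add, h, neg_add_cancel]
      have h1 := red_eq_zero_of_mem_heckeRingAway' hgℓ htℓ (D + c) h0
      rw [map_add, htD, zero_add] at h1
      exact h1
  have htc1 : (p - 1) • t c = 0 := by rw [← map_nsmul, hcord, map_zero]
  exact htc (hgℓ.inj (p - 1) (t c)
    (not_dvd_pred_of_pm_one' hp hℓ (Ne.symm hp2) (Ne.symm hp3) hpm) htc1 hcℓ)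

/-- **The frozen statement S15 from the nodes**: `GeoWeak` (GEO side), Mordell–Weil (frozen
S17) and the DESC nodes of `DescSpec.lean`. -/
theorem S15_of_nodes (hgeo : GeoWeak)
    (hMW : ∀ (p : ℕ) [NeZero p], p.Prime → 5 ≤ p →
      AddGroup.FG ↥(FixedPoints.addSubgroup Gal (JZero p)))
    (hA : Alg0Statement) (hE : EngineStatement)
    (hDiv : DivStatement) (hFlag : FlagStatement) (hLoc : LocalStatement)
    {p : ℕ} (hp : p.Prime) (hp' : p ∉ ({2, 3, 5, 7, 13} : Finset ℕ))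
    (W : WeierstrassCurve ℤ) (hΔ : W.Δ ≠ 0)
    (Q : ((W.map (Int.castRingHom ℚ))⁄(AlgebraicClosure ℚ)).Point)
    (hQfix : ∀ σ : AlgebraicClosure ℚ ≃ₐ[ℚ] AlgebraicClosure ℚ, σ • Q = Q)
    (hQord : addOrderOf Q = p)
    (h2Δ : (2 : ℤ) ∣ W.Δ) (h2c₄ : ¬ (2 : ℤ) ∣ W.c₄)
    (h2 : ∀ A : ValuationSubring (AlgebraicClosure ℚ), A.LiesOverPrime 2 →
      ¬ W.InZeroComponentAt A Q)
    (h3Δ : (3 : ℤ) ∣ W.Δ) (h3c₄ : ¬ (3 : ℤ) ∣ W.c₄)
    (h3 : ∀ A : ValuationSubring (AlgebraicClosure ℚ), A.LiesOverPrime 3 →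
      ¬ W.InZeroComponentAt A Q)
    {ℓ : ℕ} (hℓ : ℓ.Prime) (hℓp : ℓ ≠ p) (hℓΔ : (ℓ : ℤ) ∣ W.Δ) (hℓc₄ : ¬ (ℓ : ℤ) ∣ W.c₄)
    (A : ValuationSubring (AlgebraicClosure ℚ)) (hA' : A.LiesOverPrime ℓ) :
    ¬ W.InZeroComponentAt A Q :=
  S15_of_weak' hgeo (descWeak_of_nodes hMW hA hE hDiv hFlag hLoc)
    hp hp' W hΔ Q hQfix hQord h2Δ h2c₄ h2 h3Δ h3c₄ h3 hℓ hℓp hℓΔ hℓc₄ A hA'

end Fermat.Agent.S15.H975

end
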