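import Fermat.Agent.S15.H975.DescSpec2
import Fermat.Agent.S15.H975.DescTop

/-!
# Row S15: FINAL ASSEMBLY, official route (row-lead helper975)

    frozen S15  <==  GeoWeak + Mordell–Weil (frozen S17) + ALG0 + DIV + SEL
    SEL         <==  SEL-ASM + FLAG + COUNT + CNT + STEP        (`DescSpec2.lean`)

Everything is sorry-free; the nodes are hypotheses.
-/

set_option autoImplicit false

noncomputable section

open WeierstrassCurve WeierstrassCurve.Affine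

namespace Fermat.Agent.S15.H975

open ModularCurve Fermat.Agent.S15

/-- **The descent core from SEL.** -/
theorem descCoreAt_of_sel (hA : Alg0Statement) (hDiv : DivStatement) (hSel : SelStatement)
    (p : ℕ) [NeZero p] (hp : p.Prime)
    (hMW : AddGroup.FG ↥(FixedPoints.addSubgroup Gal (JZero p)))
    (S : Finset ℕ) (r : ℕ) (hr : r.Prime) (hrp : r ∣ p - 1) :
    H302.DescCoreAt p (S : Set ℕ) r :=
  descCoreAt_of_target
    (hA p (S : Set ℕ) r hp hr (hDiv p hp r hr) (fun n hn => finStatement p n hn)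
      (rtf_of_fg p hMW) (hSel p hp S r hr hrp))

/-- **The weak descent node from Mordell–Weil, ALG0, DIV and SEL.** -/
theorem descWeak_of_sel
    (hMW : ∀ (p : ℕ) [NeZero p], p.Prime → 5 ≤ p →
      AddGroup.FG ↥(FixedPoints.addSubgroup Gal (JZero p)))
    (hA : Alg0Statement) (hDiv : DivStatement) (hSel : SelStatement) :
    DescWeakStatement' := by
  intro p _ hp hp' S c hcfix hc0 hct hcE
  have hp5 : 5 ≤ p := five_le_of_notMem hp hp'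
  have hord : addOrderOf c ∣ p - 1 := addOrderOf_dvd_of_nsmul_eq_zero hct
  have hord1 : addOrderOf c ≠ 1 := by
    intro h
    exact hc0 (AddMonoid.addOrderOf_eq_one_iff.mp h)
  obtain ⟨r, hr, hrc⟩ := Nat.exists_prime_and_dvd hord1
  have hrp : r ∣ p - 1 := hrc.trans hord
  have hD : H302.DescCoreAt p (S : Set ℕ) r :=
    descCoreAt_of_sel hA hDiv hSel p hp (hMW p hp hp5) S r hr hrp
  obtain ⟨t, ht1, htM⟩ :=
    H302.exists_goodAlg_of_descCore p (S : Set ℕ) r hr.pos (hMW p hp hp5) hD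
  refine ⟨H302.goodEval p (S : Set ℕ) t, ?_, htM, ?_⟩
  · rw [← H302.goodHeckeAlg_eq_heckeRingAway]
    exact H302.goodEval_mem p _ t
  · have hE' := H302.isEisensteinClass_of_isEisensteinVector hcE
    rw [H302.goodEval_eisenstein _ hE' t]
    intro h0
    have h1 : (addOrderOf c : ℤ) ∣ H302.eisChar p (S : Set ℕ) t :=
      (addOrderOf_dvd_iff_zsmul_eq_zero).2 h0
    have h2 : (r : ℤ) ∣ H302.eisChar p (S : Set ℕ) t :=
      (Int.natCast_dvd_natCast.2 hrc).trans h1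
    have h3 : (r : ℤ) ∣ 1 := by
      have := dvd_sub h2 ht1
      simpa using this
    have h4 : (r : ℤ) = 1 ∨ (r : ℤ) = -1 := Int.isUnit_iff.1 (isUnit_of_dvd_one h3)
    rcases h4 with h4 | h4
    · exact hr.one_lt.ne' (by exact_mod_cast h4)
    · have : (0 : ℤ) ≤ r := Int.natCast_nonneg r
      omega

/-- **The frozen statement S15 from the nodes of the official route.** -/
theorem S15_of_sel (hgeo : GeoWeak)
    (hMW : ∀ (p : ℕ) [NeZero p], p.Prime → 5 ≤ p →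
      AddGroup.FG ↥(FixedPoints.addSubgroup Gal (JZero p)))
    (hA : Alg0Statement) (hDiv : DivStatement) (hSel : SelStatement)
    {p : ℕ} (hp : p.Prime) (hp' : p ∉ ({2, 3, 5, 7, 13} : Finset ℕ))
    (W : WeierstrassCurve ℤ) (hΔ : W.Δ ≠ 0)
    (Q : ((W.map (Int.castRingHom ℚ))⁄(AlgebraicClosure ℚ)).Point)
    (hQfix : ∀ σ : AlgebraicClosure ℚ ≃ₐ[ℚ] AlgebraicClosure ℚ, σ • Q = Q)
    (hQord : addOrderOf Q = p)
    (h2Δ : (2 : ℤ) ∣ W.Δ) (h2c₄ : ¬ (2 : ℤ) ∣ W.c₄)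
    (h2 : ∀ A : ValuationSubring (AlgebraicClosure ℚ), A.LiesOverPrime 2 →
      ¬ W.InZeroComponentAt A Q)
    (h3Δ : (3 : ℤ) ∣ W.Δ) (h3c₄ : ¬ (3 : ℤ) ∣ W.c₄)
    (h3 : ∀ A : ValuationSubring (AlgebraicClosure ℚ), A.LiesOverPrime 3 →
      ¬ W.InZeroComponentAt A Q)
    {ℓ : ℕ} (hℓ : ℓ.Prime) (hℓp : ℓ ≠ p) (hℓΔ : (ℓ : ℤ) ∣ W.Δ) (hℓc₄ : ¬ (ℓ : ℤ) ∣ W.c₄)
    (A : ValuationSubring (AlgebraicClosure ℚ)) (hA' : A.LiesOverPrime ℓ) :
    ¬ W.InZeroComponentAt A Q :=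
  S15_of_weak' hgeo (descWeak_of_sel hMW hA hDiv hSel)
    hp hp' W hΔ Q hQfix hQord h2Δ h2c₄ h2 h3Δ h3c₄ h3 hℓ hℓp hℓΔ hℓc₄ A hA'

/-- The official route in one statement. -/
theorem S15_of_route2 (hgeo : GeoWeak)
    (hMW : ∀ (p : ℕ) [NeZero p], p.Prime → 5 ≤ p →
      AddGroup.FG ↥(FixedPoints.addSubgroup Gal (JZero p)))
    (hA : Alg0Statement) (hDiv : DivStatement) (hAsm : SelAsmStatement)
    (hFlag : FlagStatement) (hCount : CountStatement) (hCnt : CntStatement)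
    (hStep : StepStatement)
    {p : ℕ} (hp : p.Prime) (hp' : p ∉ ({2, 3, 5, 7, 13} : Finset ℕ))
    (W : WeierstrassCurve ℤ) (hΔ : W.Δ ≠ 0)
    (Q : ((W.map (Int.castRingHom ℚ))⁄(AlgebraicClosure ℚ)).Point)
    (hQfix : ∀ σ : AlgebraicClosure ℚ ≃ₐ[ℚ] AlgebraicClosure ℚ, σ • Q = Q)
    (hQord : addOrderOf Q = p)
    (h2Δ : (2 : ℤ) ∣ W.Δ) (h2c₄ : ¬ (2 : ℤ) ∣ W.c₄)
    (h2 : ∀ A : ValuationSubring (AlgebraicClosure ℚ), A.LiesOverPrime 2 →
      ¬ W.InZeroComponentAt A Q)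
    (h3Δ : (3 : ℤ) ∣ W.Δ) (h3c₄ : ¬ (3 : ℤ) ∣ W.c₄)
    (h3 : ∀ A : ValuationSubring (AlgebraicClosure ℚ), A.LiesOverPrime 3 →
      ¬ W.InZeroComponentAt A Q)
    {ℓ : ℕ} (hℓ : ℓ.Prime) (hℓp : ℓ ≠ p) (hℓΔ : (ℓ : ℤ) ∣ W.Δ) (hℓc₄ : ¬ (ℓ : ℤ) ∣ W.c₄)
    (A : ValuationSubring (AlgebraicClosure ℚ)) (hA' : A.LiesOverPrime ℓ) :
    ¬ W.InZeroComponentAt A Q :=
  S15_of_sel hgeo hMW hA hDiv (hAsm hFlag hCount hCnt hStep)
    hp hp' W hΔ Q hQfix hQord h2Δ h2c₄ h2 h3Δ h3c₄ h3 hℓ hℓp hℓΔ hℓc₄ A hA'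

end Fermat.Agent.S15.H975

end
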