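import Fermat.Agent.S15.H975.DescTop3
import Fermat.Agent.S15.H466.SelAsm
import Fermat.Agent.S15.H302.Alg0
import Fermat.Agent.S15.H808.Rtf
import Fermat.Agent.S15.H608.T6pp
import Fermat.Agent.S17.GDiv.Final
import Fermat.Agent.S17

/-!
# Row S15: the FINAL CHAIN with every landed node plugged in (row-lead helper975)

    frozen S15  <==  Core.GeoStatement p  +  FLAG  +  COUNT  +  STEP  +  PROJ

Plugged in from main: Mordell–Weil (`S17.result`), DIV (`S17.GDiv.divisible`), ALG0
(`H302.alg0`), FIN (`finStatement`), RTF (`H808.rtfStatement_of_mw`), T6'' (`H608`),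
Hecke–Galois (`S29.H571.heckeOperatorBar_smul`), the route-208 consumer
(`H466.selBound_of_nodes208`), CUSP (`H362.cuspStatement`), the three-node TOP
(`Core.s15_of_nodes`) and `H302.descentStatement_of_descCore`.
-/

set_option autoImplicit false

noncomputable section

open WeierstrassCurve WeierstrassCurve.Affine

namespace Fermat.Agent.S15.H975

open ModularCurve Fermat.Agent.S15

/-- Mordell–Weil (frozen S17, on main). -/
theorem mordellWeil (p : ℕ) [NeZero p] (hp : p.Prime) (hp5 : 5 ≤ p) :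
    AddGroup.FG ↥(FixedPoints.addSubgroup Gal (JZero p)) :=
  Fermat.Agent.S17.result p hp hp5

/-- **DIV** (row S17, helper797). -/
theorem divStatement : DivStatement := fun p _ _ r hr x =>
  Fermat.Agent.S17.GDiv.divisible p r hr.ne_zero x

/-- **RTF** (helper808, from Mordell–Weil). -/
theorem rtfStatement : RtfStatement :=
  Fermat.Agent.S15.H808.rtfStatement_of_mw fun N _ hN hN5 => Fermat.Agent.S17.result N hN hN5

/-- Hecke–Galois equivariance (helper571). -/
theorem heckeGalStatement : Fermat.Agent.S15.H466.HeckeGalStatement := fun p _ ℓ σ x =>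
  Fermat.Agent.S29.H571.heckeOperatorBar_smul p ℓ σ x

/-- **T6''** at all prime levels (helper608; levels `2`, `3` are trivial). -/
theorem t6ppAllStatement : Fermat.Agent.S15.H466.T6ppAllStatement := by
  intro p _ hp r hr hrp k
  rcases Nat.lt_or_ge p 5 with h5 | h5
  · have h2 := hp.two_le
    have hp' : p = 2 ∨ p = 3 := by
      rcases (show p = 2 ∨ p = 3 ∨ p = 4 by omega) with h | h | h
      · exact Or.inl h
      · exact Or.inr h
      · subst h
        exact absurd hp (by decide)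
    rcases hp' with rfl | rfl
    · exfalso
      have h1 : r ∣ 1 := hrp
      exact hr.one_lt.ne' (Nat.dvd_one.mp h1)
    · intro P _ τ _ x _
      haveI := Fermat.Agent.S15.H808.subsingleton_jZero_three
      exact Subsingleton.elim _ _
  · have hrp' : r ≠ p := by
      rintro rfl
      have h1 := Nat.le_of_dvd (by omega) hrp
      omega
    exact Fermat.Agent.S15.H608.t6ppStatement_prime p r hp h5 hr hrp' k

/-- LOCAL on route 208 from COUNT and STEP. -/
theorem local208_of_count_step (hCount : CountStatement) (hStep : StepStatement) :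
    Fermat.Agent.S15.H466.Local208Statement := by
  intro p _ hp S r hr hrp
  obtain ⟨A, hA, τ₀, hτ, hstep⟩ := hStep p hp S r hr hrp
  exact ⟨A, τ₀, cocImage p (S : Set ℕ) r complexConjugation, hA, hτ,
    cocImage_le p (S : Set ℕ) r complexConjugation, hCount p hp S r hr hrp, hstep⟩

/-- **SEL** from the open nodes. -/
theorem selStatement_of_open (hFlag : FlagStatement) (hCount : CountStatement)
    (hStep : StepStatement) (hProj : Fermat.Agent.S15.H466.ProjStatement) : SelStatement :=
  fun p _ hp S r hr hrp =>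
    Fermat.Agent.S15.H466.selBound_of_nodes208 divStatement finStatement rtfStatement hFlag
      (local208_of_count_step hCount hStep) t6ppAllStatement heckeGalStatement hProj
      p hp S r hr hrp

/-- **The frozen statement S15 from the open nodes.** -/
theorem S15_of_open
    (hGeo : ∀ (p : ℕ) [NeZero p], p.Prime → p ∉ ({2, 3, 5, 7, 13} : Finset ℕ) →
      Core.GeoStatement p)
    (hFlag : FlagStatement) (hCount : CountStatement) (hStep : StepStatement)
    (hProj : Fermat.Agent.S15.H466.ProjStatement)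
    {p : ℕ} (hp : p.Prime) (hp' : p ∉ ({2, 3, 5, 7, 13} : Finset ℕ))
    (W : WeierstrassCurve ℤ) (hΔ : W.Δ ≠ 0)
    (Q : ((W.map (Int.castRingHom ℚ))⁄(AlgebraicClosure ℚ)).Point)
    (hQfix : ∀ σ : AlgebraicClosure ℚ ≃ₐ[ℚ] AlgebraicClosure ℚ, σ • Q = Q)
    (hQord : addOrderOf Q = p)
    (h2Δ : (2 : ℤ) ∣ W.Δ) (h2c₄ : ¬ (2 : ℤ) ∣ W.c₄)
    (h2 : ∀ A : ValuationSubring (AlgebraicClosure ℚ), A.LiesOverPrime 2 →
      ¬ W.InZeroComponentAt A Q)
    (h3Δ : (3 : ℤ) ∣ W.Δ) (h3c₄ : ¬ (3 : ℤ) ∣ W.c₄)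
    (h3 : ∀ A : ValuationSubring (AlgebraicClosure ℚ), A.LiesOverPrime 3 →
      ¬ W.InZeroComponentAt A Q)
    {ℓ : ℕ} (hℓ : ℓ.Prime) (hℓp : ℓ ≠ p) (hℓΔ : (ℓ : ℤ) ∣ W.Δ) (hℓc₄ : ¬ (ℓ : ℤ) ∣ W.c₄)
    (A : ValuationSubring (AlgebraicClosure ℚ)) (hA' : A.LiesOverPrime ℓ) :
    ¬ W.InZeroComponentAt A Q :=
  S15_of_geo_sel hGeo (fun p _ hp hp5 => mordellWeil p hp hp5) Fermat.Agent.S15.H302.alg0
    divStatement (selStatement_of_open hFlag hCount hStep hProj)
    hp hp' W hΔ Q hQfix hQord h2Δ h2c₄ h2 h3Δ h3c₄ h3 hℓ hℓp hℓΔ hℓc₄ A hA'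

end Fermat.Agent.S15.H975

end
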