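import Fermat.Agent.S15.H975.Final
import Fermat.Agent.S15.H628.FlagStmt
import Fermat.Agent.S15.H466.ProjInst
import Fermat.Agent.S29.M1
import Fermat.Agent.S15.H111.CountFinal
import Fermat.Agent.S15.H602.GeoFinal
import Fermat.Agent.S15.H322.Step
import Fermat.Agent.S15.H106.G3
import Fermat.Agent.S15.H106.PeuJ

/-!
# Row S15: the PLAIN TOP — every node plugged in (row-lead helper975)

`S15_top` is the frozen statement S15 (Mazur's key step), unconditional.

* GEO   : `H602.geoStatement_all602` (helper602; pieces of helper962, helper542, helper182,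
          helper722, helper362);
* FLAG  : `H628.flagStatement` (helper628);
* COUNT : `H111.count` (helper111; CONJ helper337, EPS helper221);
* STEP  : `H322.step_of_leaves` (helper322) on `H106.g3`, `H106.peu1J`, `H106.peuOmegaJ`
          (helper106; T1 helper946, T2 helper379);
* PROJ  : `H466.projStatement_of` (helper466) + `S29.heckeOperatorsCommuteBar` (helper801);
* the rest (MW, DIV, ALG0, FIN, RTF, T6'', Hecke–Galois, CNT, ENGINE, CUSP, TOP) is plugged in
  `H975/Final.lean`.

Consumers (rows S12, S09, packers): import THIS file, never `Fermat/Agent/S15.lean`.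
-/

set_option autoImplicit false

noncomputable section

open WeierstrassCurve WeierstrassCurve.Affine

namespace Fermat.Agent.S15.H975

open ModularCurve Fermat.Agent.S15

/-- **FLAG** (helper628). -/
theorem flagStatement : FlagStatement := Fermat.Agent.S15.H628.flagStatement

/-- **PROJ** (helper466, helper801). -/
theorem projStatement : Fermat.Agent.S15.H466.ProjStatement :=
  Fermat.Agent.S15.H466.projStatement_of finStatement heckeGalStatement
    fun p _ => Fermat.Agent.S29.heckeOperatorsCommuteBar p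

/-- **COUNT** (helper111; CONJ helper337, EPS helper221). -/
theorem countStatement : CountStatement := Fermat.Agent.S15.H111.count

/-- **STEP** (helper322; G3 and PEU-J helper106, T1 helper946, T2 helper379). -/
theorem stepStatement : StepStatement :=
  Fermat.Agent.S15.H322.step_of_leaves Fermat.Agent.S15.H106.g3 Fermat.Agent.S15.H106.peu1J
    Fermat.Agent.S15.H106.peuOmegaJ

/-- **SEL**, unconditional. -/
theorem selStatement : SelStatement :=
  selStatement_of_open flagStatement countStatement stepStatement projStatement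

/-- **GEO**, unconditional (helper602). -/
theorem geoStatement (p : ℕ) [NeZero p] (hp : p.Prime)
    (hp' : p ∉ ({2, 3, 5, 7, 13} : Finset ℕ)) : Core.GeoStatement p :=
  Fermat.Agent.S15.H602.geoStatement_all602 p hp hp'

/-- **The frozen statement S15**, unconditional. -/
theorem S15_top
    {p : ℕ} (hp : p.Prime) (hp' : p ∉ ({2, 3, 5, 7, 13} : Finset ℕ))
    (W : WeierstrassCurve ℤ) (hΔ : W.Δ ≠ 0)
    (Q : ((W.map (Int.castRingHom ℚ))⁄(AlgebraicClosure ℚ)).Point)
    (hQfix : ∀ σ : AlgebraicClosure ℚ ≃ₐ[ℚ] AlgebraicClosure ℚ, σ • Q = Q)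
    (hQord : addOrderOf Q = p)
    (h2Δ : (2 : ℤ) ∣ W.Δ) (h2c₄ : ¬ (2 : ℤ) ∣ W.c₄)
    (h2 : ∀ A : ValuationSubring (AlgebraicClosure ℚ), A.LiesOverPrime 2 →
      ¬ W.InZeroComponentAt A Q)
    (h3Δ : (3 : ℤ) ∣ W.Δ) (h3c₄ : ¬ (3 : ℤ) ∣ W.c₄)
    (h3 : ∀ A : ValuationSubring (AlgebraicClosure ℚ), A.LiesOverPrime 3 →
      ¬ W.InZeroComponentAt A Q)
    {ℓ : ℕ} (hℓ : ℓ.Prime) (hℓp : ℓ ≠ p) (hℓΔ : (ℓ : ℤ) ∣ W.Δ) (hℓc₄ : ¬ (ℓ : ℤ) ∣ W.c₄)
    (A : ValuationSubring (AlgebraicClosure ℚ)) (hA' : A.LiesOverPrime ℓ) :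
    ¬ W.InZeroComponentAt A Q :=
  S15_of_open (fun p _ hp hp' => geoStatement p hp hp') flagStatement countStatement
    stepStatement projStatement
    hp hp' W hΔ Q hQfix hQord h2Δ h2c₄ h2 h3Δ h3c₄ h3 hℓ hℓp hℓΔ hℓc₄ A hA'

end Fermat.Agent.S15.H975

end
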